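/-
S48 (Deligne–Serre), brick C: Eisenstein-type lattice sums of weight `k ≥ 3` with a weight
depending on the first coordinate modulo `N`.

For `u : ZMod N → ℂ` bounded by `1` we study `G_u(z) = ∑_{(c,d) ∈ ℤ²} u(c) (c z + d)^{-k}`
(`= Lib.EisCharGen.eisW (fun v => u (v 0)) k`): holomorphy, boundedness at all cusps, the slash
law `G_u ∣[k] γ = G_{u(· d_γ)}` on `Γ₀(N)` (so `G_u` is a modular form on `Γ₁(N)`), and, when
`u(-c) = (-1)^k u(c)` and `u(0) = 0`, the `q`-expansion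

  `G_u = 2 (-2πi)^k / (k-1)! · ∑_{m ≥ 1} (∑_{c e = m} u(c) e^{k-1}) q^m`.

Special cases: `u = χ` an odd Dirichlet character, `k = 3` (the nebentypus multiplier), and
`u = 1_{e} ± 1_{-e}` (integral forms on `Γ₁(N)` whose diamond translates are visibly distinct).
-/
import Mathlib
import Fermat.Agent.Lib.EisCharGen

set_option autoImplicit false

open ModularForm UpperHalfPlane Complex Matrix CongruenceSubgroup Set Filter Topology
open EisensteinSeries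
open scoped MatrixGroups Manifold Real

namespace Fermat.Agent.S48.EisNeb

open Fermat.Agent.Lib.EisCharGen

noncomputable section

variable {N : ℕ} (u : ZMod N → ℂ) (k : ℕ)

/-- The weight `v ↦ u(v₀)` on bottom rows. -/
def wt (v : Fin 2 → ℤ) : ℂ := u ((v 0 : ℤ) : ZMod N)

lemma norm_wt_le (hu : ∀ c, ‖u c‖ ≤ 1) (v : Fin 2 → ℤ) : ‖wt u v‖ ≤ 1 := hu _

/-- The lattice sum `∑ u(c) (c z + d)^{-k}`. -/
def eisU : ℍ → ℂ := eisW (wt u) (k : ℤ)

theorem eisU_mdifferentiable (hu : ∀ c, ‖u c‖ ≤ 1) (hk : 3 ≤ k) : MDiff (eisU u k) :=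
  eisW_mdifferentiable (norm_wt_le u hu) (by exact_mod_cast hk)

theorem isBoundedAtImInfty_eisU_slash (hu : ∀ c, ‖u c‖ ≤ 1) (hk : 3 ≤ k) (A : SL(2, ℤ)) :
    IsBoundedAtImInfty (eisU u k ∣[(k : ℤ)] A) :=
  isBoundedAtImInfty_eisW_slash (norm_wt_le u hu) (by exact_mod_cast hk) A

/-- The slash law on `Γ₀(N)`: the weight is translated by the lower right entry. -/
theorem eisU_slash (γ : SL(2, ℤ)) (hγ : γ ∈ Gamma0 N) :
    eisU u k ∣[(k : ℤ)] γ = eisU (fun c => u (c * ((γ 1 1 : ℤ) : ZMod N))) k := by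
  unfold eisU
  rw [eisW_slash]
  have hc : ((γ 1 0 : ℤ) : ZMod N) = 0 := Gamma0_mem.mp hγ
  congr 1
  funext v
  have h0 : (v ᵥ* γ⁻¹.1) 0 = v 0 * γ 1 1 - v 1 * γ 1 0 := by
    rw [Matrix.SpecialLinearGroup.coe_inv, Matrix.adjugate_fin_two]
    simp [Matrix.vecMul, dotProduct, Fin.sum_univ_two]
    ring
  unfold wt
  rw [h0]
  push_cast
  rw [hc, mul_zero, sub_zero]

lemma eisU_const_mul (a : ℂ) : eisU (fun c => a * u c) k = a • eisU u k := by
  ext z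
  simp only [eisU, eisW, wt, Pi.smul_apply, smul_eq_mul, mul_assoc, tsum_mul_left]

/-- The normalised `m`-th coefficient `∑_{c e = m} u(c) e^{k-1}`. -/
def coefU (m : ℕ) : ℂ :=
  ∑ x ∈ m.divisorsAntidiagonal, u ((x.1 : ℕ) : ZMod N) * ((x.2 : ℕ) : ℂ) ^ (k - 1)

lemma coefU_zero : coefU u k 0 = 0 := by simp [coefU]

lemma coefU_one : coefU u k 1 = u 1 := by simp [coefU]

/-! ### The `q`-expansion -/

lemma summable_prod_term (hu : ∀ c, ‖u c‖ ≤ 1) (hk : 3 ≤ k) (z : ℍ) :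
    Summable fun x : ℤ × ℤ => u ((x.1 : ℤ) : ZMod N) * eisSummand (k : ℤ) ![x.1, x.2] z := by
  have h := summable_term (w := wt u) (k := (k : ℤ)) (norm_wt_le u hu) (by exact_mod_cast hk) z
  refine ((finTwoArrowEquiv ℤ).symm.summable_iff.mpr h).congr fun x => ?_
  simp [wt]

lemma eisU_eq_tsum_tsum (hu : ∀ c, ‖u c‖ ≤ 1) (hk : 3 ≤ k) (z : ℍ) :
    eisU u k z = ∑' c : ℤ, ∑' d : ℤ, u ((c : ℤ) : ZMod N) * eisSummand (k : ℤ) ![c, d] z := by
  rw [← Summable.tsum_prod (summable_prod_term u k hu hk z)]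
  unfold eisU eisW
  rw [← (finTwoArrowEquiv ℤ).symm.tsum_eq]
  refine tsum_congr fun x => ?_
  simp [wt]

/-- The inner sum over `d` for fixed `c`. -/
def innerSum (z : ℍ) (c : ℤ) : ℂ :=
  ∑' d : ℤ, u ((c : ℤ) : ZMod N) * eisSummand (k : ℤ) ![c, d] z

lemma innerSum_neg (hpar : ∀ c, u (-c) = (-1) ^ k * u c) (z : ℍ) (c : ℤ) :
    innerSum u k z (-c) = innerSum u k z c := by
  unfold innerSum
  rw [← tsum_comp_neg]
  refine tsum_congr fun d => ?_
  have h1 : u (((-c : ℤ)) : ZMod N) = (-1) ^ k * u ((c : ℤ) : ZMod N) := by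
    rw [Int.cast_neg, hpar]
  rw [h1]
  have h2 : eisSummand (k : ℤ) ![-c, -d] z = (-1) ^ k * eisSummand (k : ℤ) ![c, d] z := by
    simp only [eisSummand, Matrix.cons_val_zero, Matrix.cons_val_one, Int.cast_neg]
    have : (-(c : ℂ) * (z : ℂ) + -(d : ℂ)) = -((c : ℂ) * (z : ℂ) + (d : ℂ)) := by ring
    rw [this, _root_.zpow_neg, _root_.zpow_neg, zpow_natCast, zpow_natCast, neg_pow, mul_inv,
      ← inv_pow, inv_neg_one]
  rw [h2]
  have h3 : ((-1 : ℂ)) ^ k * (-1) ^ k = 1 := by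
    rw [← mul_pow]
    simp
  calc (-1 : ℂ) ^ k * u ((c : ℤ) : ZMod N) * ((-1) ^ k * eisSummand (k : ℤ) ![c, d] z)
      = ((-1 : ℂ) ^ k * (-1) ^ k) * (u ((c : ℤ) : ZMod N) * eisSummand (k : ℤ) ![c, d] z) := by
        ring
    _ = _ := by rw [h3, one_mul]

lemma innerSum_zero (h0 : u 0 = 0) (z : ℍ) : innerSum u k z 0 = 0 := by
  unfold innerSum
  simp [h0]

lemma innerSum_pnat (hk : 3 ≤ k) (z : ℍ) (c : ℕ+) :
    innerSum u k z (c : ℤ) = u ((c : ℕ) : ZMod N) * (((-2 * π * Complex.I) ^ k / (k - 1).factorial) *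
      ∑' n : ℕ+, (n : ℂ) ^ (k - 1) * cexp (2 * π * Complex.I * z) ^ ((c : ℕ) * (n : ℕ))) := by
  unfold innerSum
  rw [tsum_mul_left]
  congr 1
  · simp
  have hz : 0 < ((c : ℂ) * (z : ℂ)).im := by
    have : ((c : ℂ) * (z : ℂ)).im = (c : ℝ) * z.im := by simp
    rw [this]
    exact mul_pos (by exact_mod_cast c.pos) z.2
  have H := qExpansion_identity_pnat (k := k - 1) (by omega) ⟨(c : ℂ) * z, hz⟩
  have hk1 : k - 1 + 1 = k := by omega
  rw [hk1] at H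
  have e1 : ∀ d : ℤ, eisSummand (k : ℤ) ![(c : ℤ), d] z
      = 1 / (((⟨(c : ℂ) * z, hz⟩ : ℍ) : ℂ) + d) ^ k := by
    intro d
    simp only [eisSummand, Matrix.cons_val_zero, Matrix.cons_val_one]
    rw [_root_.zpow_neg, one_div, zpow_natCast]
    norm_cast
  rw [tsum_congr e1, H]
  congr 1
  refine tsum_congr fun n => ?_
  congr 1
  rw [← Complex.exp_nat_mul, ← Complex.exp_nat_mul]
  congr 1
  push_cast
  ring

/-- The double series over `ℕ+ × ℕ+`. -/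
def ppTerm (z : ℍ) (x : ℕ+ × ℕ+) : ℂ :=
  u ((x.1 : ℕ) : ZMod N) *
    ((x.2 : ℂ) ^ (k - 1) * cexp (2 * π * Complex.I * z) ^ ((x.1 : ℕ) * (x.2 : ℕ)))

lemma summable_ppTerm (hu : ∀ c, ‖u c‖ ≤ 1) (z : ℍ) : Summable (ppTerm u k z) := by
  have hr := norm_exp_two_pi_I_lt_one z
  have h := summable_prod_mul_pow (𝕜 := ℂ) (k - 1) hr
  refine Summable.of_norm_bounded (g := fun x : ℕ+ × ℕ+ =>
    ‖((x.2 : ℕ) : ℂ) ^ (k - 1) * cexp (2 * π * Complex.I * z) ^ ((x.1 : ℕ) * (x.2 : ℕ))‖) h.norm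
    (fun x => ?_)
  unfold ppTerm
  rw [norm_mul]
  exact mul_le_of_le_one_left (norm_nonneg _) (hu _)

theorem eisU_eq_tsum_ppTerm (hu : ∀ c, ‖u c‖ ≤ 1) (hk : 3 ≤ k)
    (hpar : ∀ c, u (-c) = (-1) ^ k * u c) (h0 : u 0 = 0) (z : ℍ) :
    eisU u k z = 2 * ((-2 * π * Complex.I) ^ k / (k - 1).factorial) *
      ∑' x : ℕ+ × ℕ+, ppTerm u k z x := by
  rw [eisU_eq_tsum_tsum u k hu hk]
  have hs : Summable (innerSum u k z) := (summable_prod_term u k hu hk z).prod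
  have h := tsum_int_eq_zero_add_two_mul_tsum_pnat (f := innerSum u k z)
    (fun c => innerSum_neg u k hpar z c) hs
  change ∑' c : ℤ, innerSum u k z c = _
  rw [h, innerSum_zero u k h0, zero_add, (summable_ppTerm u k hu z).tsum_prod]
  rw [← tsum_mul_left, two_nsmul, ← two_mul, ← tsum_mul_left]
  refine tsum_congr fun c => ?_
  rw [innerSum_pnat u k hk]
  unfold ppTerm
  dsimp only
  rw [tsum_mul_left]
  ring

lemma tsum_ppTerm_fiber (z : ℍ) (m : ℕ+) :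
    ∑' x : Nat.divisorsAntidiagonal (m : ℕ), ppTerm u k z (sigmaAntidiagonalEquivProd ⟨m, x⟩)
      = coefU u k m * cexp (2 * π * Complex.I * z) ^ (m : ℕ) := by
  have e : ∀ x : Nat.divisorsAntidiagonal (m : ℕ),
      ppTerm u k z (sigmaAntidiagonalEquivProd ⟨m, x⟩)
        = (fun y : ℕ × ℕ => u ((y.1 : ℕ) : ZMod N) * (((y.2 : ℕ) : ℂ) ^ (k - 1) *
            cexp (2 * π * Complex.I * z) ^ (y.1 * y.2))) x.1 := by
    intro x
    simp [ppTerm, sigmaAntidiagonalEquivProd, divisorsAntidiagonalFactors]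
  rw [tsum_congr e, Finset.tsum_subtype (s := Nat.divisorsAntidiagonal (m : ℕ))
    (f := fun y : ℕ × ℕ => u ((y.1 : ℕ) : ZMod N) * (((y.2 : ℕ) : ℂ) ^ (k - 1) *
      cexp (2 * π * Complex.I * z) ^ (y.1 * y.2)))]
  unfold coefU
  rw [Finset.sum_mul]
  refine Finset.sum_congr rfl fun x hx => ?_
  rw [(Nat.mem_divisorsAntidiagonal.mp hx).1]
  ring

lemma summable_coefU_pnat (hu : ∀ c, ‖u c‖ ≤ 1) (z : ℍ) :
    Summable fun m : ℕ+ => coefU u k m * cexp (2 * π * Complex.I * z) ^ (m : ℕ) := by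
  have h := (sigmaAntidiagonalEquivProd.summable_iff.mpr (summable_ppTerm u k hu z)).sigma
  refine h.congr fun m => ?_
  exact tsum_ppTerm_fiber u k z m

lemma tsum_ppTerm (hu : ∀ c, ‖u c‖ ≤ 1) (z : ℍ) :
    ∑' x : ℕ+ × ℕ+, ppTerm u k z x
      = ∑' m : ℕ+, coefU u k m * cexp (2 * π * Complex.I * z) ^ (m : ℕ) := by
  have h := sigmaAntidiagonalEquivProd.summable_iff.mpr (summable_ppTerm u k hu z)
  calc ∑' x : ℕ+ × ℕ+, ppTerm u k z x
      = ∑' c, (ppTerm u k z ∘ sigmaAntidiagonalEquivProd) c :=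
        (sigmaAntidiagonalEquivProd.tsum_eq _).symm
    _ = ∑' m : ℕ+, ∑' x : Nat.divisorsAntidiagonal (m : ℕ),
          (ppTerm u k z ∘ sigmaAntidiagonalEquivProd) ⟨m, x⟩ := h.tsum_sigma
    _ = _ := tsum_congr fun m => tsum_ppTerm_fiber u k z m

/-- The normalising constant `2 (-2πi)^k / (k-1)!`. -/
def eisConst : ℂ := 2 * ((-2 * π * Complex.I) ^ k / (k - 1).factorial)

lemma eisConst_ne_zero : eisConst k ≠ 0 := by
  unfold eisConst
  refine mul_ne_zero two_ne_zero (div_ne_zero (pow_ne_zero _ ?_) ?_)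
  · simp [Real.pi_ne_zero, Complex.I_ne_zero]
  · exact_mod_cast (Nat.factorial_pos _).ne'

/-- The `q`-expansion of `G_u` as a convergent series. -/
theorem hasSum_eisU (hu : ∀ c, ‖u c‖ ≤ 1) (hk : 3 ≤ k)
    (hpar : ∀ c, u (-c) = (-1) ^ k * u c) (h0 : u 0 = 0) (z : ℍ) :
    HasSum (fun m : ℕ => (eisConst k * coefU u k m) •
      Function.Periodic.qParam (1 : ℝ) z ^ m) (eisU u k z) := by
  have hq : Function.Periodic.qParam (1 : ℝ) z = cexp (2 * π * Complex.I * z) := by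
    simp [Function.Periodic.qParam]
  rw [hq]
  have hs : Summable fun m : ℕ => coefU u k m * cexp (2 * π * Complex.I * z) ^ m :=
    summable_pnat_iff_summable_nat.mp (summable_coefU_pnat u k hu z)
  have h00 := tsum_zero_pnat_eq_tsum_nat hs
  rw [coefU_zero, zero_mul, zero_add] at h00
  have h1 := (hs.mul_left (eisConst k)).hasSum
  rw [tsum_mul_left, ← h00, ← tsum_ppTerm u k hu] at h1
  have h2 : eisConst k * ∑' x : ℕ+ × ℕ+, ppTerm u k z x = eisU u k z := by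
    rw [eisU_eq_tsum_ppTerm u k hu hk hpar h0]
    rfl
  rw [h2] at h1
  have e : (fun m : ℕ => (eisConst k * coefU u k m) • cexp (2 * π * Complex.I * z) ^ m)
      = fun m : ℕ => eisConst k * (coefU u k m * cexp (2 * π * Complex.I * z) ^ m) := by
    funext m
    simp [mul_assoc]
  rw [e]
  exact h1

/-! ### The normalised series as a modular form on `Γ₁(N)` -/

variable [NeZero N]

/-- The normalised lattice sum `G_u / (2 (-2πi)^k / (k-1)!)` as a modular form of weight `k` on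
`Γ₁(N)`. -/
def eisUMF (hu : ∀ c, ‖u c‖ ≤ 1) (hk : 3 ≤ k) :
    ModularForm ((Gamma1 N : Subgroup SL(2, ℤ)) : Subgroup (GL (Fin 2) ℝ)) (k : ℤ) where
  toFun := (eisConst k)⁻¹ • eisU u k
  slash_action_eq' A hA := by
    obtain ⟨A, hA, rfl⟩ := hA
    change ((eisConst k)⁻¹ • eisU u k) ∣[(k : ℤ)] A = _
    rw [SL_smul_slash, eisU_slash u k A (Gamma1_in_Gamma0 N hA)]
    have hd : ((A 1 1 : ℤ) : ZMod N) = 1 := ((Gamma1_mem N A).mp hA).2.1
    simp only [hd, mul_one]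
  holo' := (eisU_mdifferentiable u k hu hk).const_smul _
  bdd_at_cusps' {c} hc := by
    rw [Subgroup.IsArithmetic.isCusp_iff_isCusp_SL2Z] at hc
    rw [OnePoint.isBoundedAt_iff_forall_SL2Z hc]
    intro γ _
    rw [SL_smul_slash]
    exact (isBoundedAtImInfty_eisU_slash u k hu hk γ).const_smul_left _

lemma eisUMF_apply (hu : ∀ c, ‖u c‖ ≤ 1) (hk : 3 ≤ k) (z : ℍ) :
    eisUMF u k hu hk z = (eisConst k)⁻¹ * eisU u k z := rfl

lemma coe_eisUMF (hu : ∀ c, ‖u c‖ ≤ 1) (hk : 3 ≤ k) :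
    ⇑(eisUMF u k hu hk) = (eisConst k)⁻¹ • eisU u k := rfl

omit [NeZero N] in
lemma one_mem_strictPeriods_Gamma1 :
    (1 : ℝ) ∈ ((Gamma1 N : Subgroup SL(2, ℤ)) : Subgroup (GL (Fin 2) ℝ)).strictPeriods := by
  rw [strictPeriods_Gamma1]
  exact AddSubgroup.mem_zmultiples 1

/-- The `q`-expansion coefficients of the normalised series. -/
theorem qExpansion_eisUMF_coeff (hu : ∀ c, ‖u c‖ ≤ 1) (hk : 3 ≤ k)
    (hpar : ∀ c, u (-c) = (-1) ^ k * u c) (h0 : u 0 = 0) (m : ℕ) :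
    (qExpansion 1 (eisUMF u k hu hk)).coeff m = coefU u k m := by
  refine (ModularFormClass.qExpansion_coeff_unique (c := coefU u k) one_pos
    (one_mem_strictPeriods_Gamma1 (N := N)) (f := eisUMF u k hu hk) (fun τ => ?_) m).symm
  have h := (hasSum_eisU u k hu hk hpar h0 τ).mul_left ((eisConst k)⁻¹)
  rw [eisUMF_apply]
  have e : (fun m : ℕ => (eisConst k)⁻¹ * ((eisConst k * coefU u k m) •
      Function.Periodic.qParam (1 : ℝ) τ ^ m))
      = fun m : ℕ => coefU u k m • Function.Periodic.qParam (1 : ℝ) τ ^ m := by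
    funext m
    simp only [smul_eq_mul]
    rw [← mul_assoc, ← mul_assoc, inv_mul_cancel₀ (eisConst_ne_zero k), one_mul]
  rw [e] at h
  exact h

/-- The slash law on `Γ₀(N)` for the normalised series. -/
theorem eisUMF_slash (hu : ∀ c, ‖u c‖ ≤ 1) (hk : 3 ≤ k) (γ : SL(2, ℤ)) (hγ : γ ∈ Gamma0 N) :
    (⇑(eisUMF u k hu hk) : ℍ → ℂ) ∣[(k : ℤ)] γ
      = ⇑(eisUMF (fun c => u (c * ((γ 1 1 : ℤ) : ZMod N))) k (fun _ => hu _) hk) := by
  rw [coe_eisUMF, coe_eisUMF, SL_smul_slash, eisU_slash u k γ hγ]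

end

end Fermat.Agent.S48.EisNeb
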