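/-
S48 (Deligne–Serre), brick C through a nebentypus multiplier.

* `hasIntegralStructure_all`: the integral structure of `S_k(Γ₀(N))` for every weight `k`
  (the landed S23 chain is weight-generic).
* `eisChi χ`: the weight-3 Eisenstein series with nebentypus `χ` (odd), normalised to have
  `q`-expansion `∑_m (∑_{c e = m} χ(c) e²) q^m`.
* `prodCF`: for a weight-one cusp form `f` on `Γ₁(N)` with nebentypus `ε`, the product
  `f · eisChi ε⁻¹` as a cusp form of weight `4` on `Γ₀(N)`.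
-/
import Mathlib
import Fermat.Agent.S48.EisNeb.QExp
import Fermat.Agent.S23.Wiring
import Fermat.Agent.S23.Fraction
import Fermat.Agent.S23.NormPoly
import Fermat.Agent.S23.Integrality
import Fermat.Agent.S23.LevelOneSpan

set_option autoImplicit false
set_option linter.unusedSectionVars false

open ModularForm UpperHalfPlane Complex Matrix CongruenceSubgroup Set Filter Topology
open scoped MatrixGroups Manifold Real

namespace Fermat.Agent.S48.EisNeb

noncomputable section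

variable {N : ℕ} [NeZero N]

/-- The integral structure on `S_k(Γ₀(N))` for every weight `k`: the landed S23 chain. -/
theorem hasIntegralStructure_all (N : ℕ) [NeZero N] (k : ℤ) : CuspForm.HasIntegralStructure N k :=
  Fermat.Agent.S23.Wiring.hasIntegralStructure_of_parts N k
    (fun f => Fermat.Agent.S23.Fraction.exists_fraction N k f)
    (fun f => Fermat.Agent.S23.exists_norm_polynomial N f)
    (fun K g => Fermat.Agent.S23.LevelOneSpan.cusp_mem_span K g)
    (fun P Q hQ n c h => Fermat.Agent.S23.Integrality.integrality_criterion N P Q hQ n c h)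

/-- The weight-3 Eisenstein series with nebentypus `χ`, normalised. -/
def eisChi (χ : DirichletCharacter ℂ N) :
    ModularForm ((Gamma1 N : Subgroup SL(2, ℤ)) : Subgroup (GL (Fin 2) ℝ)) 3 :=
  eisUMF (fun c => χ c) 3 (fun c => DirichletCharacter.norm_le_one χ c) le_rfl

/-- The `m`-th coefficient `∑_{c e = m} χ(c) e²` of `eisChi χ`. -/
def coefChi (χ : DirichletCharacter ℂ N) (m : ℕ) : ℂ :=
  ∑ x ∈ m.divisorsAntidiagonal, χ ((x.1 : ℕ) : ZMod N) * ((x.2 : ℕ) : ℂ) ^ 2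

lemma coefChi_zero (χ : DirichletCharacter ℂ N) : coefChi χ 0 = 0 := by simp [coefChi]

lemma coefChi_one (χ : DirichletCharacter ℂ N) : coefChi χ 1 = 1 := by simp [coefChi]

lemma chi_zero_of_odd (χ : DirichletCharacter ℂ N) (hodd : χ (-1) = -1) : χ (0 : ZMod N) = 0 := by
  refine MulChar.map_nonunit χ fun h => ?_
  have h01 : (0 : ZMod N) = 1 := isUnit_zero_iff.mp h
  have h1 : (-1 : ZMod N) = 1 :=
    (subsingleton_of_zero_eq_one h01).elim _ _
  rw [h1, map_one] at hodd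
  norm_num at hodd

theorem qExpansion_eisChi_coeff (χ : DirichletCharacter ℂ N) (hodd : χ (-1) = -1) (m : ℕ) :
    (qExpansion 1 (eisChi χ)).coeff m = coefChi χ m := by
  have h := qExpansion_eisUMF_coeff (fun c => χ c) 3
    (fun c => DirichletCharacter.norm_le_one χ c) le_rfl (fun c => by
      rw [← neg_one_mul c, map_mul, hodd]; norm_num) (chi_zero_of_odd χ hodd) m
  exact h

theorem eisChi_ne_zero (χ : DirichletCharacter ℂ N) (hodd : χ (-1) = -1) : eisChi χ ≠ 0 := by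
  intro h
  have h1 := qExpansion_eisChi_coeff χ hodd 1
  rw [h, coefChi_one] at h1
  have h2 : (qExpansion 1 ((0 : ModularForm ((Gamma1 N : Subgroup SL(2, ℤ)) :
      Subgroup (GL (Fin 2) ℝ)) 3) : ℍ → ℂ)) = 0 := by
    rw [FunLike.coe_zero]
    exact qExpansion_zero 1
  rw [h2] at h1
  simp at h1

/-- The nebentypus law of `eisChi χ` on `Γ₀(N)`. -/
theorem eisChi_slash (χ : DirichletCharacter ℂ N) (γ : SL(2, ℤ)) (hγ : γ ∈ Gamma0 N) :
    (⇑(eisChi χ) : ℍ → ℂ) ∣[(3 : ℤ)] γ = χ ((γ 1 1 : ℤ) : ZMod N) • ⇑(eisChi χ) := by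
  have h := eisUMF_slash (fun c => χ c) 3 (fun c => DirichletCharacter.norm_le_one χ c) le_rfl γ hγ
  have e : (fun c : ZMod N => χ (c * ((γ 1 1 : ℤ) : ZMod N)))
      = fun c => χ ((γ 1 1 : ℤ) : ZMod N) * χ c := by
    funext c
    rw [map_mul, mul_comm]
  change (⇑(eisChi χ) : ℍ → ℂ) ∣[((3 : ℕ) : ℤ)] γ = _
  unfold eisChi
  rw [h, coe_eisUMF, coe_eisUMF]
  simp only [e]
  rw [eisU_const_mul, smul_comm]

/-- `f` transforms under `Γ₀(N)` in weight `k` with the character `ε` of the lower right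
entry. -/
def HasNeben (ε : DirichletCharacter ℂ N) (f : ℍ → ℂ) (k : ℤ) : Prop :=
  ∀ γ : SL(2, ℤ), γ ∈ Gamma0 N → f ∣[k] γ = ε ((γ 1 1 : ℤ) : ZMod N) • f

omit [NeZero N] in
/-- A nonzero function with nebentypus `ε` in weight one forces `ε` to be odd. -/
theorem odd_of_hasNeben (ε : DirichletCharacter ℂ N) (f : ℍ → ℂ) (hneb : HasNeben ε f 1)
    (hf : f ≠ 0) : ε (-1) = -1 := by
  have hmem : (-1 : SL(2, ℤ)) ∈ Gamma0 N := by
    rw [Gamma0_mem]
    simp
  have h := hneb (-1) hmem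
  have h1 : f ∣[(1 : ℤ)] (-1 : SL(2, ℤ)) = -f := by
    ext z
    rw [SL_slash_apply]
    have h1 : ((-1 : SL(2, ℤ)) • z) = z := by simp
    have h2 : denom ((-1 : SL(2, ℤ))) z = -1 := by simp [denom]
    rw [h1, h2]
    simp
  rw [h1] at h
  have hd : (((-1 : SL(2, ℤ)) 1 1 : ℤ) : ZMod N) = -1 := by simp
  rw [hd] at h
  by_contra hne
  apply hf
  funext z
  have hz := congrFun h z
  simp only [Pi.neg_apply, Pi.smul_apply, smul_eq_mul] at hz
  have : (ε (-1) + 1) * f z = 0 := by rw [add_mul, one_mul, ← hz]; ring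
  rcases mul_eq_zero.mp this with h0 | h0
  · exact absurd (eq_neg_of_add_eq_zero_left h0) hne
  · simpa using h0

omit [NeZero N] in
lemma isUnit_lowerRight (γ : SL(2, ℤ)) (hγ : γ ∈ Gamma0 N) :
    IsUnit (((γ 1 1 : ℤ)) : ZMod N) := by
  have hc : ((γ 1 0 : ℤ) : ZMod N) = 0 := Gamma0_mem.mp hγ
  have hdet : γ 0 0 * γ 1 1 - γ 0 1 * γ 1 0 = 1 := by
    have := γ.det_coe
    rw [Matrix.det_fin_two] at this
    exact this
  have h : ((γ 0 0 : ℤ) : ZMod N) * ((γ 1 1 : ℤ) : ZMod N) = 1 := by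
    have := congrArg (Int.cast : ℤ → ZMod N) hdet
    push_cast at this
    rw [hc, mul_zero, sub_zero] at this
    exact this
  exact IsUnit.of_mul_eq_one _ (by rw [mul_comm]; exact h)

/-- The product of a weight-one cusp form with nebentypus `ε` on `Γ₁(N)` and the Eisenstein
series with nebentypus `ε⁻¹`, as a cusp form of weight `4` on `Γ₀(N)`. -/
def prodCF (ε : DirichletCharacter ℂ N)
    (f : CuspForm ((Gamma1 N : Subgroup SL(2, ℤ)) : Subgroup (GL (Fin 2) ℝ)) 1)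
    (hneb : HasNeben ε (⇑f) 1) :
    CuspForm ((Gamma0 N : Subgroup SL(2, ℤ)) : Subgroup (GL (Fin 2) ℝ)) 4 where
  toFun := ⇑f * ⇑(eisChi ε⁻¹)
  slash_action_eq' A hA := by
    obtain ⟨A, hA, rfl⟩ := hA
    change (⇑f * ⇑(eisChi ε⁻¹)) ∣[(4 : ℤ)] A = _
    have h4 : (4 : ℤ) = 1 + 3 := by norm_num
    rw [h4, mul_slash_SL2, hneb A hA, eisChi_slash _ A hA]
    have hu := isUnit_lowerRight A hA
    have h1 : ε ((A 1 1 : ℤ) : ZMod N) * ε⁻¹ ((A 1 1 : ℤ) : ZMod N) = 1 := by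
      rw [MulChar.inv_apply_eq_inv']
      exact mul_inv_cancel₀ (hu.map ε).ne_zero
    ext z
    simp only [Pi.mul_apply, Pi.smul_apply, smul_eq_mul]
    calc ε ((A 1 1 : ℤ) : ZMod N) * f z * (ε⁻¹ ((A 1 1 : ℤ) : ZMod N) * eisChi ε⁻¹ z)
        = (ε ((A 1 1 : ℤ) : ZMod N) * ε⁻¹ ((A 1 1 : ℤ) : ZMod N)) * (f z * eisChi ε⁻¹ z) := by ring
      _ = _ := by rw [h1, one_mul]
  holo' := f.holo'.mul (eisChi ε⁻¹).holo'
  zero_at_cusps' {c} hc := by
    rw [Subgroup.IsArithmetic.isCusp_iff_isCusp_SL2Z] at hc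
    rw [OnePoint.isZeroAt_iff_forall_SL2Z hc]
    intro γ _
    have h4 : (4 : ℤ) = 1 + 3 := by norm_num
    rw [h4, mul_slash_SL2]
    exact (CuspFormClass.zero_at_infty_slash f γ).mul_boundedAtFilter
      (ModularFormClass.bdd_at_infty_slash (eisChi ε⁻¹) γ)

lemma coe_prodCF (ε : DirichletCharacter ℂ N)
    (f : CuspForm ((Gamma1 N : Subgroup SL(2, ℤ)) : Subgroup (GL (Fin 2) ℝ)) 1)
    (hneb : HasNeben ε (⇑f) 1) : ⇑(prodCF ε f hneb) = ⇑f * ⇑(eisChi ε⁻¹) := rfl

end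

end Fermat.Agent.S48.EisNeb
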